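/-
CELL T1b (S40), E-side, supersingular half — helper46.  Brick `ESS46/Core`: EISENSTEIN-TRANSITIVITY.

`Qbar = AlgebraicClosure ℚ`, `A` a valuation subring of `Qbar` over the prime `p`, `I = I_A` its inertia group.
Let `f ∈ ℤ[X]` of degree `n ≥ 1` with leading coefficient `p`, all coefficients of positive index divisible
by `p`, and constant coefficient prime to `p` (i.e. the REVERSED polynomial is Eisenstein at `p`).  Then `I`
acts transitively on the roots of `f` in `Qbar` (`exists_inertia_map_root`).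

Proof (no Newton polygons, no completions): every root `x` has `v(x⁻¹)^n = v(p)` (ultrametric dominance);
the product `b` of the inverses of the `d` conjugates of `x` under `I` is fixed by `I` and has `v(b)^n = v(p)^d`,
`v(b) < 1`; by the earlier team's (UNR) lemma `ES/P36/UnrFixed1.div_natCast_mem_of_fixed` (`I`-fixed elements of
the maximal ideal are divisible by `p`) `v(b) ≤ v(p)`, whence `d ≥ n`.
-/
import Mathlib
import Fermat.Agent.ES.P36.UnrFixed1

set_option autoImplicit false
set_option linter.unusedSectionVars false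
set_option linter.unusedVariables false

open Polynomial

namespace Fermat.Agent.T1.ESS46.Core

local notation "Qbar" => AlgebraicClosure ℚ

section Dominance

variable {K : Type*} [Field K] {Γ : Type*} [LinearOrderedCommGroupWithZero Γ] (v : Valuation K Γ)

/-- Ultrametric dominance: a finite sum with a strictly dominant nonzero term is nonzero. -/
theorem sum_ne_zero_of_dominant {ι : Type*} [DecidableEq ι] (s : Finset ι) (T : ι → K) {j : ι}
    (hj : j ∈ s) (hTj : T j ≠ 0) (hlt : ∀ i ∈ s, i ≠ j → v (T i) < v (T j)) :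
    ∑ i ∈ s, T i ≠ 0 := by
  intro h0
  rw [← Finset.add_sum_erase s T hj] at h0
  have h1 : v (∑ i ∈ s.erase j, T i) < v (T j) := by
    apply Valuation.map_sum_lt v ((Valuation.ne_zero_iff v).2 hTj)
    intro i hi
    exact hlt i (Finset.mem_of_mem_erase hi) (Finset.ne_of_mem_erase hi)
  have h2 : T j = -∑ i ∈ s.erase j, T i := eq_neg_of_add_eq_zero_left h0
  rw [h2, Valuation.map_neg] at h1
  exact lt_irrefl _ h1

/-- If a finite sum vanishes and all terms other than `j`, `k` are strictly smaller than `T k`, then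
`v (T j) = v (T k)`. -/
theorem val_eq_of_sum_eq_zero {ι : Type*} [DecidableEq ι] (s : Finset ι) (T : ι → K) {j k : ι}
    (hj : j ∈ s) (hk : k ∈ s) (hjk : j ≠ k) (hTk : T k ≠ 0)
    (hlt : ∀ i ∈ s, i ≠ j → i ≠ k → v (T i) < v (T k))
    (h0 : ∑ i ∈ s, T i = 0) : v (T j) = v (T k) := by
  rcases lt_trichotomy (v (T j)) (v (T k)) with h | h | h
  · exfalso
    refine sum_ne_zero_of_dominant v s T hk hTk ?_ h0
    intro i hi hik
    by_cases hij : i = j
    · rw [hij]; exact h
    · exact hlt i hi hij hik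
  · exact h
  · exfalso
    have hTj : T j ≠ 0 := by
      intro hz
      rw [hz, Valuation.map_zero] at h
      exact not_lt_zero h
    refine sum_ne_zero_of_dominant v s T hj hTj ?_ h0
    intro i hi hij
    by_cases hik : i = k
    · rw [hik]; exact h
    · exact (hlt i hi hij hik).trans h

end Dominance

variable (A : ValuationSubring Qbar) {p : ℕ}

theorem val_intCast_le_one (m : ℤ) : A.valuation (m : Qbar) ≤ 1 :=
  (A.valuation_le_one_iff _).2 (intCast_mem A m)

theorem val_p_lt_one (hA : A.LiesOverPrime p) : A.valuation (p : Qbar) < 1 :=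
  A.mem_nonunits_iff.1 hA

theorem val_p_pos (hp : p.Prime) : 0 < A.valuation (p : Qbar) := by
  rw [zero_lt_iff, Valuation.ne_zero_iff]
  exact_mod_cast hp.ne_zero

/-- An integer prime to `p` is a unit of `A`. -/
theorem val_intCast_eq_one (hp : p.Prime) (hA : A.LiesOverPrime p) {m : ℤ} (hm : ¬ (p : ℤ) ∣ m) :
    A.valuation (m : Qbar) = 1 := by
  apply le_antisymm (val_intCast_le_one A m)
  by_contra hlt
  rw [not_le] at hlt
  have hpv := val_p_lt_one A hA
  have hcop : IsCoprime (p : ℤ) m :=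
    (Prime.coprime_iff_not_dvd (Nat.prime_iff_prime_int.1 hp)).2 hm
  obtain ⟨u, w, huw⟩ := hcop
  have h1 : ((u : Qbar) * (p : Qbar) + (w : Qbar) * (m : Qbar)) = 1 := by
    have := congrArg (Int.cast : ℤ → Qbar) huw
    push_cast at this
    exact this
  have h2 : A.valuation ((u : Qbar) * (p : Qbar) + (w : Qbar) * (m : Qbar)) < 1 := by
    apply Valuation.map_add_lt
    · rw [map_mul]
      calc A.valuation (u : Qbar) * A.valuation (p : Qbar)
          ≤ 1 * A.valuation (p : Qbar) := mul_le_mul_left (val_intCast_le_one A u) _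
        _ < 1 := by rw [one_mul]; exact hpv
    · rw [map_mul]
      calc A.valuation (w : Qbar) * A.valuation (m : Qbar)
          ≤ 1 * A.valuation (m : Qbar) := mul_le_mul_left (val_intCast_le_one A w) _
        _ < 1 := by rw [one_mul]; exact hlt
  rw [h1, map_one] at h2
  exact lt_irrefl _ h2

/-- An integer divisible by `p` has valuation `≤ v(p)`. -/
theorem val_intCast_le_of_dvd {m : ℤ} (hm : (p : ℤ) ∣ m) :
    A.valuation (m : Qbar) ≤ A.valuation (p : Qbar) := by
  obtain ⟨k, rfl⟩ := hm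
  push_cast
  rw [map_mul]
  calc A.valuation (p : Qbar) * A.valuation (k : Qbar)
      ≤ A.valuation (p : Qbar) * 1 := mul_le_mul_right (val_intCast_le_one A k) _
    _ = A.valuation (p : Qbar) := mul_one _


/-- **Step A.** A root `x` of `f` is nonzero and `v(x⁻¹) ^ n = v(p)`. -/
theorem root_val (hp : p.Prime) (hA : A.LiesOverPrime p) (f : ℤ[X])
    (hn : 0 < f.natDegree) (hlead : f.coeff f.natDegree = p)
    (hmid : ∀ i, 0 < i → (p : ℤ) ∣ f.coeff i) (h0 : ¬ (p : ℤ) ∣ f.coeff 0)
    {x : Qbar} (hx : aeval x f = 0) :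
    x ≠ 0 ∧ A.valuation x⁻¹ ^ f.natDegree = A.valuation (p : Qbar) := by
  classical
  set n := f.natDegree with hn_def
  have hx0 : x ≠ 0 := by
    rintro rfl
    have h1 := Polynomial.coeff_zero_eq_aeval_zero' (A := Qbar) f
    rw [hx] at h1
    have h2 : f.coeff 0 = 0 := by
      have : ((f.coeff 0 : ℤ) : Qbar) = 0 := by simpa using h1
      exact_mod_cast this
    exact h0 (h2 ▸ dvd_zero _)
  refine ⟨hx0, ?_⟩
  set y := x⁻¹ with hy
  have hy0 : y ≠ 0 := inv_ne_zero hx0
  have hvy0 : 0 < A.valuation y := by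
    rw [zero_lt_iff, Valuation.ne_zero_iff]; exact hy0
  have hvp0 := val_p_pos A hp
  have hvp1 := val_p_lt_one A hA
  -- the reversed equation
  let T : ℕ → Qbar := fun i => (f.coeff i : Qbar) * y ^ (n - i)
  have hsum : ∑ i ∈ Finset.range (n + 1), T i = 0 := by
    have h1 : aeval x f = ∑ i ∈ Finset.range (n + 1), (f.coeff i : Qbar) * x ^ i := by
      rw [Polynomial.aeval_eq_sum_range]
      refine Finset.sum_congr rfl fun i _ => ?_
      rw [zsmul_eq_mul]
    rw [hx] at h1
    have h2 : (∑ i ∈ Finset.range (n + 1), (f.coeff i : Qbar) * x ^ i) * y ^ n = 0 := by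
      rw [← h1, zero_mul]
    rw [Finset.sum_mul] at h2
    rw [← h2]
    refine Finset.sum_congr rfl fun i hi => ?_
    have hi' : i ≤ n := Nat.lt_succ_iff.1 (Finset.mem_range.1 hi)
    show (f.coeff i : Qbar) * y ^ (n - i) = (f.coeff i : Qbar) * x ^ i * y ^ n
    have h3 : y ^ n = y ^ (n - i) * y ^ i := by rw [← pow_add, Nat.sub_add_cancel hi']
    have hxi : x ^ i * y ^ i = 1 := by rw [← mul_pow, hy, mul_inv_cancel₀ hx0, one_pow]
    rw [h3]
    calc (f.coeff i : Qbar) * y ^ (n - i)
        = (f.coeff i : Qbar) * y ^ (n - i) * (x ^ i * y ^ i) := by rw [hxi, mul_one]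
      _ = (f.coeff i : Qbar) * x ^ i * (y ^ (n - i) * y ^ i) := by ring
  have ha0 : A.valuation ((f.coeff 0 : ℤ) : Qbar) = 1 := val_intCast_eq_one A hp hA h0
  have hT0 : A.valuation (T 0) = A.valuation y ^ n := by
    show A.valuation ((f.coeff 0 : Qbar) * y ^ (n - 0)) = _
    rw [map_mul, ha0, one_mul, map_pow, Nat.sub_zero]
  have hTn : A.valuation (T n) = A.valuation (p : Qbar) := by
    show A.valuation ((f.coeff n : Qbar) * y ^ (n - n)) = _
    rw [Nat.sub_self, pow_zero, mul_one, hlead]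
    norm_cast
  have hTi : ∀ i, 0 < i → A.valuation (T i) ≤ A.valuation (p : Qbar) * A.valuation y ^ (n - i) := by
    intro i hi
    show A.valuation ((f.coeff i : Qbar) * y ^ (n - i)) ≤ _
    rw [map_mul, map_pow]
    exact mul_le_mul_left (val_intCast_le_of_dvd A (hmid i hi)) _
  have hT0ne : T 0 ≠ 0 := by
    intro h
    have := hT0
    rw [h, Valuation.map_zero] at this
    exact (pow_pos hvy0 n).ne this
  have hTnne : T n ≠ 0 := by
    intro h
    have := hTn
    rw [h, Valuation.map_zero] at this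
    exact hvp0.ne this
  have h0mem : 0 ∈ Finset.range (n + 1) := Finset.mem_range.2 (Nat.succ_pos n)
  have hnmem : n ∈ Finset.range (n + 1) := Finset.mem_range.2 (Nat.lt_succ_self n)
  -- `v y < 1`
  have hy1 : A.valuation y < 1 := by
    by_contra hge
    rw [not_lt] at hge
    refine sum_ne_zero_of_dominant A.valuation (Finset.range (n + 1)) T h0mem hT0ne ?_ hsum
    intro i hi hi0
    have hipos : 0 < i := Nat.pos_of_ne_zero hi0
    rw [hT0]
    calc A.valuation (T i) ≤ A.valuation (p : Qbar) * A.valuation y ^ (n - i) := hTi i hipos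
      _ < A.valuation y ^ (n - i) := mul_lt_of_lt_one_left (pow_pos hvy0 _) hvp1
      _ ≤ A.valuation y ^ n := pow_le_pow_right₀ hge (Nat.sub_le n i)
  have hkey := val_eq_of_sum_eq_zero A.valuation (Finset.range (n + 1)) T h0mem hnmem
    (Nat.pos_iff_ne_zero.1 hn).symm hTnne ?_ hsum
  · rw [hT0, hTn] at hkey
    exact hkey
  · intro i hi hi0 hin
    have hipos : 0 < i := Nat.pos_of_ne_zero hi0
    have hilt : i < n := lt_of_le_of_ne (Nat.lt_succ_iff.1 (Finset.mem_range.1 hi)) hin
    rw [hTn]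
    calc A.valuation (T i) ≤ A.valuation (p : Qbar) * A.valuation y ^ (n - i) := hTi i hipos
      _ < A.valuation (p : Qbar) :=
        mul_lt_of_lt_one_right hvp0 (pow_lt_one₀ hvy0.le hy1 (Nat.sub_ne_zero_of_lt hilt))

/-- **Eisenstein transitivity.** If the reversed polynomial of `f ∈ ℤ[X]` is Eisenstein at `p`, the inertia
group of `A` acts transitively on the roots of `f` in `Qbar`. -/
theorem exists_inertia_map_root (hp : p.Prime) (hA : A.LiesOverPrime p) (f : ℤ[X])
    (hn : 0 < f.natDegree) (hlead : f.coeff f.natDegree = p)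
    (hmid : ∀ i, 0 < i → (p : ℤ) ∣ f.coeff i) (h0 : ¬ (p : ℤ) ∣ f.coeff 0)
    {x x' : Qbar} (hx : aeval x f = 0) (hx' : aeval x' f = 0) :
    ∃ τ ∈ A.inertiaSubgroupIn ℚ, τ x = x' := by
  classical
  set n := f.natDegree with hn_def
  set I := A.inertiaSubgroupIn ℚ with hI
  have hvp0 := val_p_pos A hp
  have hvp1 := val_p_lt_one A hA
  have hf0 : f ≠ 0 := by
    intro h
    rw [hn_def, h, natDegree_zero] at hn
    exact lt_irrefl _ hn
  have hfm : f.map (algebraMap ℤ Qbar) ≠ 0 := by
    rw [Ne, Polynomial.map_eq_zero_iff (RingHom.injective_int (algebraMap ℤ Qbar))]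
    exact hf0
  -- the finite set of roots
  set R : Finset Qbar := (f.aroots Qbar).toFinset with hR
  have hmemR : ∀ z : Qbar, z ∈ R ↔ aeval z f = 0 := by
    intro z
    rw [hR, Multiset.mem_toFinset, Polynomial.mem_aroots']
    exact ⟨fun h => h.2, fun h => ⟨hfm, h⟩⟩
  have hcardR : R.card ≤ n := by
    calc R.card ≤ (f.aroots Qbar).card := Multiset.toFinset_card_le _
      _ ≤ (f.map (algebraMap ℤ Qbar)).natDegree := Polynomial.card_roots' _
      _ ≤ n := Polynomial.natDegree_map_le
  -- the orbit of `x`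
  set O : Finset Qbar := R.filter (fun z => ∃ τ ∈ I, τ x = z) with hO
  have hxO : x ∈ O := by
    rw [hO, Finset.mem_filter]
    exact ⟨(hmemR x).2 hx, 1, I.one_mem, rfl⟩
  have hOR : O ⊆ R := Finset.filter_subset _ _
  have hstab : ∀ τ ∈ I, ∀ z ∈ O, τ z ∈ O := by
    intro τ hτ z hz
    rw [hO, Finset.mem_filter] at hz ⊢
    obtain ⟨hzR, τ', hτ', rfl⟩ := hz
    refine ⟨?_, τ * τ', I.mul_mem hτ hτ', rfl⟩
    rw [hmemR] at hzR ⊢
    have := Polynomial.aeval_algHom_apply (τ : Qbar →ₐ[ℚ] Qbar) (τ' x) (f.map (algebraMap ℤ ℚ))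
    rw [Polynomial.aeval_map_algebraMap, Polynomial.aeval_map_algebraMap, hzR, map_zero] at this
    exact this
  have himage : ∀ τ ∈ I, O.image (fun z => τ z) = O := by
    intro τ hτ
    apply Finset.eq_of_subset_of_card_le
    · intro z hz
      rw [Finset.mem_image] at hz
      obtain ⟨w, hw, rfl⟩ := hz
      exact hstab τ hτ w hw
    · rw [Finset.card_image_of_injective _ τ.injective]
  -- the product of the inverses
  set b : Qbar := ∏ z ∈ O, z⁻¹ with hb
  have hbfix : ∀ τ ∈ I, τ b = b := by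
    intro τ hτ
    rw [hb, map_prod]
    have h1 : ∏ z ∈ O, τ z⁻¹ = ∏ z ∈ O, (τ z)⁻¹ := Finset.prod_congr rfl fun z _ => map_inv₀ τ z
    rw [h1]
    conv_rhs => rw [← himage τ hτ]
    rw [Finset.prod_image (fun a _ c _ h => τ.injective h)]
  have hvb : A.valuation b ^ n = A.valuation (p : Qbar) ^ O.card := by
    rw [hb, map_prod, ← Finset.prod_pow]
    rw [Finset.prod_congr rfl (fun z hz => (root_val A hp hA f hn hlead hmid h0
      ((hmemR z).1 (hOR hz))).2), Finset.prod_const]
  have hdpos : 0 < O.card := Finset.card_pos.2 ⟨x, hxO⟩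
  have hvb1 : A.valuation b < 1 := by
    by_contra hge
    rw [not_lt] at hge
    have h1 : 1 ≤ A.valuation b ^ n := one_le_pow₀ hge
    rw [hvb] at h1
    exact not_lt.2 h1 (pow_lt_one₀ hvp0.le hvp1 hdpos.ne')
  have hbdiv : b / (p : Qbar) ∈ A :=
    Fermat.Agent.ES.P36.UnrFixed1.div_natCast_mem_of_fixed A hp hA b hbfix (A.mem_nonunits_iff.2 hvb1)
  have hvbp : A.valuation b ≤ A.valuation (p : Qbar) := by
    have h1 := (A.valuation_le_one_iff _).2 hbdiv
    rw [map_div₀, div_le_one₀ hvp0] at h1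
    exact h1
  have hdn : n ≤ O.card := by
    by_contra hlt
    rw [not_le] at hlt
    have h1 : A.valuation (p : Qbar) ^ O.card ≤ A.valuation (p : Qbar) ^ n := by
      rw [← hvb]
      exact pow_le_pow_left₀ zero_le hvbp n
    exact not_lt.2 h1 (pow_lt_pow_right_of_lt_one₀ hvp0 hvp1 hlt)
  have hOeq : O = R := Finset.eq_of_subset_of_card_le hOR (hcardR.trans hdn)
  have hx'O : x' ∈ O := by rw [hOeq]; exact (hmemR x').2 hx'
  rw [hO, Finset.mem_filter] at hx'O
  exact hx'O.2

end Fermat.Agent.T1.ESS46.Core
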