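/-
CELL T1b (S40), E-side, supersingular half — helper46.  Brick `ESS46/Torsion`.

`W : WeierstrassCurve ℤ`, `p` an odd prime, `E = W ⊗ ℚ`.  `IsSS W p` : all coefficients of positive index of the
`p`-th division polynomial `preΨ_p ∈ ℤ[X]` are divisible by `p`, the constant coefficient is not (i.e.
`preΨ_p mod p` is a nonzero constant: the reduction of `E` mod `p` has no point of order `p`).

* `inertia_transitive` : under `IsSS W p`, for every valuation subring `A` of `ℚ̄` over `p`, the inertia group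
  `I_A` acts transitively on `(E[p] ∖ 0)/±`;
* `inertia_irreducible` : hence the only `I_A`-stable `ZMod p`-submodules of `E[p](ℚ̄)` are `⊥` and `⊤`
  (statement in the vocabulary of `Def_FLTPrelim_GaloisRep` / `Def_FLTPrelim_Ramification`).
-/
import Mathlib
import Fermat.Agent.T1.ESS46.Core
import Fermat.Agent.DivPoly.A1Final
import Fermat.Prelude.Def_FLTPrelim_GaloisRep
import Fermat.Prelude.Def_FLTPrelim_Ramification

set_option autoImplicit false
set_option linter.unusedSectionVars false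
set_option linter.unusedVariables false

open Polynomial WeierstrassCurve WeierstrassCurve.Affine

namespace Fermat.Agent.T1.ESS46.Torsion

local notation "Qbar" => AlgebraicClosure ℚ

/-- Supersingular reduction at `p`, division-polynomial form. -/
def IsSS (W : WeierstrassCurve ℤ) (p : ℕ) : Prop :=
  (∀ i, 0 < i → (p : ℤ) ∣ (W.preΨ (p : ℤ)).coeff i) ∧ ¬ (p : ℤ) ∣ (W.preΨ (p : ℤ)).coeff 0

variable (W : WeierstrassCurve ℤ) {p : ℕ}

/-- The curve over `ℚ`. -/
abbrev EQ : WeierstrassCurve ℚ := W.map (Int.castRingHom ℚ)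

theorem not_even_cast (hp : p.Prime) (hp2 : p ≠ 2) : ¬ Even ((p : ℕ) : ℤ) := by
  rw [Int.even_coe_nat]
  rw [Nat.not_even_iff_odd]
  exact hp.odd_of_ne_two hp2

theorem natDegree_preΨ_p (hp : p.Prime) (hp2 : p ≠ 2) :
    (W.preΨ (p : ℤ)).natDegree = (p ^ 2 - 1) / 2 := by
  have h : (((p : ℤ) : ℤ)) ≠ 0 := by exact_mod_cast hp.ne_zero
  rw [W.natDegree_preΨ (n := (p : ℤ)) (by simpa using h), if_neg (not_even_cast hp hp2)]
  simp

theorem natDegree_preΨ_p_pos (hp : p.Prime) (hp2 : p ≠ 2) :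
    0 < (W.preΨ (p : ℤ)).natDegree := by
  rw [natDegree_preΨ_p W hp hp2]
  have h3 : 3 ≤ p := by
    have := hp.two_le
    omega
  have : 8 ≤ p ^ 2 - 1 := by
    have : 9 ≤ p ^ 2 := by nlinarith
    omega
  omega

theorem coeff_natDegree_preΨ_p (hp : p.Prime) (hp2 : p ≠ 2) :
    (W.preΨ (p : ℤ)).coeff (W.preΨ (p : ℤ)).natDegree = (p : ℤ) := by
  have h : (((p : ℤ) : ℤ)) ≠ 0 := by exact_mod_cast hp.ne_zero
  have := W.leadingCoeff_preΨ (n := (p : ℤ)) (by simpa using h)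
  rw [if_neg (not_even_cast hp hp2)] at this
  exact this

/-- The division polynomial of `E⁄ℚ̄` evaluated at `x` is `aeval x` of the integral one. -/
theorem eval_preΨ_eq (n : ℤ) (x : Qbar) :
    (((EQ W)⁄Qbar).preΨ n).eval x = aeval x (W.preΨ n) := by
  have h1 : ((EQ W)⁄Qbar).preΨ n = ((W.preΨ n).map (Int.castRingHom ℚ)).map (algebraMap ℚ Qbar) := by
    show ((W.map (Int.castRingHom ℚ)).map (algebraMap ℚ Qbar)).preΨ n = _
    rw [WeierstrassCurve.map_preΨ, WeierstrassCurve.map_preΨ]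
  rw [h1, Polynomial.map_map, Polynomial.eval_map, Polynomial.aeval_def]
  congr 1

variable {W}

/-- **Transitivity.** -/
theorem inertia_transitive (hp : p.Prime) (hp2 : p ≠ 2) (hss : IsSS W p)
    (A : ValuationSubring Qbar) (hA : A.LiesOverPrime p)
    (P Q : ((EQ W)⁄Qbar).Point) (hP : P ≠ 0) (hPp : p • P = 0) (hQ : Q ≠ 0) (hQp : p • Q = 0) :
    ∃ τ ∈ A.inertiaSubgroupIn ℚ, τ • P = Q ∨ τ • P = -Q := by
  classical
  have hodd : Odd p := hp.odd_of_ne_two hp2
  rcases P with _ | ⟨x, y, h⟩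
  · exact absurd rfl hP
  rcases Q with _ | ⟨x', y', h'⟩
  · exact absurd rfl hQ
  have hx : aeval x (W.preΨ (p : ℤ)) = 0 := by
    rw [← eval_preΨ_eq]
    exact (Fermat.Agent.DivPoly.A1Final.nsmul_eq_zero_iff_preΨ h hodd).1 hPp
  have hx' : aeval x' (W.preΨ (p : ℤ)) = 0 := by
    rw [← eval_preΨ_eq]
    exact (Fermat.Agent.DivPoly.A1Final.nsmul_eq_zero_iff_preΨ h' hodd).1 hQp
  obtain ⟨τ, hτ, hτx⟩ := Core.exists_inertia_map_root A hp hA (W.preΨ (p : ℤ))
    (natDegree_preΨ_p_pos W hp hp2) (coeff_natDegree_preΨ_p W hp hp2) hss.1 hss.2 hx hx'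
  refine ⟨τ, hτ, ?_⟩
  have hnsτ : ((EQ W)⁄Qbar).Nonsingular (τ x) (τ y) :=
    (WeierstrassCurve.Affine.baseChange_nonsingular (EQ W) (f := (τ : Qbar →ₐ[ℚ] Qbar))
      (τ : Qbar →ₐ[ℚ] Qbar).injective x y).mpr h
  have hsm : τ • (Point.some x y h : ((EQ W)⁄Qbar).Point) = Point.some (τ x) (τ y) hnsτ := rfl
  rw [hsm]
  rcases Y_eq_of_X_eq hnsτ.1 h'.1 hτx with hy | hy
  · left
    simp only [Point.some.injEq]
    exact ⟨hτx, hy⟩
  · right
    rw [Point.neg_some]
    simp only [Point.some.injEq]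
    exact ⟨hτx, hy⟩

/-- **Irreducibility under inertia**, in the vocabulary of the Prelude. -/
theorem inertia_irreducible (hp : p.Prime) (hp2 : p ≠ 2) (hss : IsSS W p)
    (A : ValuationSubring Qbar) (hA : A.LiesOverPrime p)
    (N : Submodule (ZMod p) (Submodule.torsionBy ℤ ((EQ W)⁄Qbar).Point p))
    (hN : ∀ τ ∈ A.inertiaSubgroupIn ℚ, ∀ x ∈ N, τ • x ∈ N) : N = ⊥ ∨ N = ⊤ := by
  classical
  by_cases hbot : N = ⊥
  · exact Or.inl hbot
  right
  obtain ⟨P, hPN, hP0⟩ := Submodule.exists_mem_ne_zero_of_ne_bot hbot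
  rw [eq_top_iff]
  intro Q _
  by_cases hQ0 : Q = 0
  · rw [hQ0]; exact N.zero_mem
  have htor : ∀ R : Submodule.torsionBy ℤ ((EQ W)⁄Qbar).Point p, p • (R : ((EQ W)⁄Qbar).Point) = 0 := by
    intro R
    have := R.2
    rw [Submodule.mem_torsionBy_iff] at this
    rw [← natCast_zsmul]
    exact this
  have hP0' : (P : ((EQ W)⁄Qbar).Point) ≠ 0 := fun h => hP0 (Subtype.ext h)
  have hQ0' : (Q : ((EQ W)⁄Qbar).Point) ≠ 0 := fun h => hQ0 (Subtype.ext h)
  obtain ⟨τ, hτ, hτP⟩ := inertia_transitive hp hp2 hss A hA P Q hP0' (htor P) hQ0' (htor Q)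
  have hmem := hN τ hτ P hPN
  rcases hτP with h | h
  · have : τ • P = Q := Subtype.ext h
    rw [← this]; exact hmem
  · have : τ • P = -Q := Subtype.ext h
    have h2 : Q = -(τ • P) := by rw [this, neg_neg]
    rw [h2]; exact N.neg_mem hmem

end Fermat.Agent.T1.ESS46.Torsion
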