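/-
CELL T1b (S40), E-side — helper46.  Brick `ESS46/Dichotomy`.

For `W : WeierstrassCurve ℤ` with good reduction at the odd prime `p`, the `p`-th division polynomial
`preΨ_p ∈ ℤ[X]` does not vanish mod `p` (`exists_coeff_not_dvd`); hence either `IsSS W p` (constant mod `p`:
the supersingular case, handled by `ESS46/Torsion.inertia_irreducible`) or `IsOrd W p` (non-constant mod `p`),
and in the latter case the reduction has a point of order `p` over `F̄_p` (`exists_point_of_isOrd`).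
-/
import Mathlib
import Fermat.Agent.T1.ESS46.Torsion
import Fermat.Prelude.Def_FLTPrelim_Modularity

set_option autoImplicit false
set_option linter.unusedSectionVars false
set_option linter.unusedVariables false

open Polynomial WeierstrassCurve WeierstrassCurve.Affine

namespace Fermat.Agent.T1.ESS46.Dichotomy

open Fermat.Agent.T1.ESS46.Torsion

/-- Ordinary reduction at `p`, division-polynomial form: `preΨ_p mod p` is not constant. -/
def IsOrd (W : WeierstrassCurve ℤ) (p : ℕ) : Prop :=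
  ∃ i, 0 < i ∧ ¬ (p : ℤ) ∣ (W.preΨ (p : ℤ)).coeff i

variable (W : WeierstrassCurve ℤ) {p : ℕ}

/-- The reduction of `W` over the algebraic closure of `𝔽_p`. -/
noncomputable abbrev Wbar (p : ℕ) [Fact p.Prime] : WeierstrassCurve (AlgebraicClosure (ZMod p)) :=
  W.map (Int.castRingHom (AlgebraicClosure (ZMod p)))

theorem intCast_eq_zero_iff [Fact p.Prime] (a : ℤ) :
    ((a : ℤ) : AlgebraicClosure (ZMod p)) = 0 ↔ (p : ℤ) ∣ a :=
  CharP.intCast_eq_zero_iff (AlgebraicClosure (ZMod p)) p a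

theorem Wbar_Δ_ne_zero [Fact p.Prime] (hgood : W.IsGoodPrimeFor p) : (Wbar W p).Δ ≠ 0 := by
  show (W.map (Int.castRingHom (AlgebraicClosure (ZMod p)))).Δ ≠ 0
  rw [WeierstrassCurve.map_Δ]
  intro h
  exact hgood ((intCast_eq_zero_iff W.Δ).1 (by simpa using h))

theorem Wbar_preΨ [Fact p.Prime] (n : ℤ) :
    (Wbar W p).preΨ n = (W.preΨ n).map (Int.castRingHom (AlgebraicClosure (ZMod p))) :=
  WeierstrassCurve.map_preΨ _ _ _

/-- **The division polynomial `preΨ_p` does not vanish mod `p`** (good reduction, `p` odd). -/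
theorem exists_coeff_not_dvd (hp : p.Prime) (hp2 : p ≠ 2) (hgood : W.IsGoodPrimeFor p) :
    ∃ i, ¬ (p : ℤ) ∣ (W.preΨ (p : ℤ)).coeff i := by
  classical
  have : Fact p.Prime := ⟨hp⟩
  by_contra hall
  push Not at hall
  -- the division polynomial vanishes over `F̄_p`
  have hzero : (Wbar W p).preΨ (p : ℤ) = 0 := by
    rw [Wbar_preΨ]
    ext i
    rw [Polynomial.coeff_map, Polynomial.coeff_zero]
    exact (intCast_eq_zero_iff _).2 (hall i)
  have hodd : Odd p := hp.odd_of_ne_two hp2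
  -- an auxiliary odd prime `n ≠ p`
  obtain ⟨n, hnodd, hn2, hnp, hnprime⟩ : ∃ n : ℕ, Odd n ∧ 2 < n ∧ n ≠ p ∧ n.Prime := by
    by_cases h3 : p = 3
    · exact ⟨5, by decide, by decide, by omega, by norm_num⟩
    · exact ⟨3, by decide, by decide, fun h => h3 h.symm, by norm_num⟩
  have hnF : ((n : ℕ) : AlgebraicClosure (ZMod p)) ≠ 0 := by
    intro h
    have h1 : p ∣ n := (CharP.cast_eq_zero_iff (AlgebraicClosure (ZMod p)) p n).1 h
    exact hnp ((Nat.prime_dvd_prime_iff_eq hp hnprime).1 h1).symm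
  obtain ⟨P, hP0, hPn⟩ := Fermat.Agent.DivPoly.A1Final.exists_torsion_point
    (W := (Wbar W p).toAffine) hnodd hn2 hnF (Wbar_Δ_ne_zero W hgood)
  rcases P with _ | ⟨x, y, h⟩
  · exact hP0 rfl
  have hPp : p • (Point.some x y h : (Wbar W p).toAffine.Point) = 0 := by
    rw [Fermat.Agent.DivPoly.A1Final.nsmul_eq_zero_iff_preΨ h hodd]
    have : (Wbar W p).toAffine.preΨ (p : ℤ) = 0 := hzero
    rw [this, Polynomial.eval_zero]
  have hcop : Nat.Coprime n p := (Nat.coprime_primes hnprime hp).2 hnp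
  have h1 : addOrderOf (Point.some x y h : (Wbar W p).toAffine.Point) ∣ Nat.gcd n p :=
    Nat.dvd_gcd (addOrderOf_dvd_of_nsmul_eq_zero hPn) (addOrderOf_dvd_of_nsmul_eq_zero hPp)
  rw [hcop, Nat.dvd_one, AddMonoid.addOrderOf_eq_one_iff] at h1
  exact hP0 h1

/-- **The dichotomy.** -/
theorem isSS_or_isOrd (hp : p.Prime) (hp2 : p ≠ 2) (hgood : W.IsGoodPrimeFor p) :
    IsSS W p ∨ IsOrd W p := by
  by_cases h : ∀ i, 0 < i → (p : ℤ) ∣ (W.preΨ (p : ℤ)).coeff i
  · left
    refine ⟨h, fun h0 => ?_⟩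
    obtain ⟨i, hi⟩ := exists_coeff_not_dvd W hp hp2 hgood
    rcases Nat.eq_zero_or_pos i with rfl | hipos
    · exact hi h0
    · exact hi (h i hipos)
  · right
    push Not at h
    exact h

/-- In the ordinary case the reduction has a nonzero point killed by `p` over `F̄_p`. -/
theorem exists_point_of_isOrd [hpf : Fact p.Prime] [DecidableEq (AlgebraicClosure (ZMod p))]
    (hp2 : p ≠ 2) (hgood : W.IsGoodPrimeFor p) (hord : IsOrd W p) :
    ∃ P : (Wbar W p).toAffine.Point, P ≠ 0 ∧ p • P = 0 := by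
  have hp : p.Prime := hpf.out
  have hodd : Odd p := hp.odd_of_ne_two hp2
  obtain ⟨i, hipos, hi⟩ := hord
  have hcoeff : ((Wbar W p).preΨ (p : ℤ)).coeff i ≠ 0 := by
    rw [Wbar_preΨ, Polynomial.coeff_map]
    intro h
    exact hi ((intCast_eq_zero_iff _).1 (by simpa using h))
  have hne : (Wbar W p).preΨ (p : ℤ) ≠ 0 := fun h => hcoeff (by rw [h, Polynomial.coeff_zero])
  have hdeg : ((Wbar W p).preΨ (p : ℤ)).degree ≠ 0 := by
    rw [degree_eq_natDegree hne]
    have : i ≤ ((Wbar W p).preΨ (p : ℤ)).natDegree := le_natDegree_of_ne_zero hcoeff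
    have : 0 < ((Wbar W p).preΨ (p : ℤ)).natDegree := lt_of_lt_of_le hipos this
    exact_mod_cast this.ne'
  obtain ⟨x, hx⟩ := IsAlgClosed.exists_root _ hdeg
  obtain ⟨y, hy⟩ := Fermat.Agent.S51.exists_equation (Wbar W p).toAffine x
  have h : (Wbar W p).toAffine.Nonsingular x y :=
    (equation_iff_nonsingular_of_Δ_ne_zero (Wbar_Δ_ne_zero W hgood)).mp hy
  refine ⟨Point.some x y h, Point.some_ne_zero h, ?_⟩
  rw [Fermat.Agent.DivPoly.A1Final.nsmul_eq_zero_iff_preΨ h hodd]
  exact hx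

end Fermat.Agent.T1.ESS46.Dichotomy
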